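import Fermat.Agent.MU.Lib.MultRed.Comp.Rho
import Fermat.Agent.Lib.MultRed.Comp.Cyc
import Fermat.Agent.Lib.MultRed.Comp.Half
import Fermat.Agent.MU.E.S12.VeluVC

section MergeWrap_Lib_MultRed_Comp_VeluVal -- from Lib/MultRed/Comp/VeluVal.lean

/-!
# Lib/MultRed/Comp/VeluVal: the Vélu quotient by a line that misses the zero component

`W` in nodal normal form (`a₃ = a₄ = 0`, `w b₂ = 0`, `w a₆ = 2h > 0`), `Q` a point of odd prime
order `p` that reduces to the node (`rhoN Q ≠ 0`).  Then there is `g > 0` with `p • g = 2h` such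
that the Vélu sums satisfy `w t = g`, `w (w-sum) ≥ 2g`, hence
`w (c₄(W/⟨Q⟩)) = 0` and `w (Δ(W/⟨Q⟩)) = g = w(Δ(W)) / p`.   Every residue characteristic.
Owner: helper45 (cluster E', seat E-L / L1).
-/

set_option autoImplicit false
set_option linter.unusedSectionVars false

namespace Fermat.Agent.MultRed.Comp

open S05H65 S05H65.AVal WeierstrassCurve Fermat.Agent.EV Fermat.Agent.EVC

section VeluVal

variable {K : Type*} [Field K] [DecidableEq K]
  {G : Type*} [AddCommGroup G] [LinearOrder G] [IsOrderedAddMonoid G]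
  {W : WeierstrassCurve.Affine K} {V : AVal K G} {h : G}

lemma px_eq_ptX (P : W.Point) : px P = ptX P := by
  rcases P with _ | ⟨x, y, hxy⟩ <;> rfl

lemma ptX_neg (P : W.Point) : ptX (-P) = ptX P := by
  rcases P with _ | ⟨x, y, hxy⟩ <;> rfl

lemma veluT_neg (P : W.Point) : veluT W (-P) = veluT W P := by
  simp only [veluT, ptX_neg]

lemma veluU_neg (P : W.Point) : veluU W (-P) = veluU W P := by
  simp only [veluU, ptX_neg]

/-- from a lower bound for the clamped valuation to a lower bound for the valuation -/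
lemma ge_of_le_cl (hh : 0 < h) {x : K} {c : G} (hc0 : 0 < c) (hc : c ≤ V.cl h x) : V.Ge x c := by
  rcases regime V h x with ⟨α, h1, hα⟩ | ⟨α, h1, hα, hα'⟩ | h1
  · rw [cl_of_ex h1] at hc
    exact absurd hc (by grind)
  · rw [cl_of_ex h1] at hc
    exact h1.ge' (by grind)
  · rw [cl_of_ge hh h1] at hc
    exact h1.mono hc

/-- in the middle regime the clamped valuation is the valuation -/
lemma ex_of_cl_eq (hh : 0 < h) {x : K} {c : G} (hc0 : 0 < c) (hch : c < h)
    (hc : V.cl h x = c) : V.Ex x c := by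
  rcases regime V h x with ⟨α, h1, hα⟩ | ⟨α, h1, hα, hα'⟩ | h1
  · rw [cl_of_ex h1] at hc
    exact absurd hc (by grind)
  · rw [cl_of_ex h1] at hc
    exact h1.congr (by grind)
  · rw [cl_of_ge hh h1] at hc
    exact absurd hc (by grind)

/-- `Δ` of the Vélu quotient of a curve in normal form -/
lemma veluCurve_Δ_normal (h3 : W.a₃ = 0) (h4 : W.a₄ = 0) (C : Set W.Point) :
    (veluCurve W C).Δ = W.b₂ ^ 4 * veluSumT W C +
      (-W.b₂ ^ 3 * (W.a₆ - 7 * veluSumW W C) + 25 * W.b₂ ^ 2 * veluSumT W C ^ 2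
        + 8000 * veluSumT W C ^ 3
        - 432 * (W.a₆ - W.b₂ * veluSumT W C - 7 * veluSumW W C) ^ 2
        - 360 * W.b₂ * veluSumT W C * (W.a₆ - W.b₂ * veluSumT W C - 7 * veluSumW W C)) := by
  simp only [WeierstrassCurve.Δ, WeierstrassCurve.b₂, WeierstrassCurve.b₄, WeierstrassCurve.b₆,
    WeierstrassCurve.b₈, veluCurve, h3, h4]
  ring

/-- `c₄` of the Vélu quotient of a curve in normal form -/
lemma veluCurve_c₄_normal (h3 : W.a₃ = 0) (h4 : W.a₄ = 0) (C : Set W.Point) :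
    (veluCurve W C).c₄ = W.b₂ ^ 2 + 240 * veluSumT W C := by
  simp only [WeierstrassCurve.c₄, WeierstrassCurve.b₂, WeierstrassCurve.b₄, veluCurve, h3, h4]
  ring

/-- the valuations of `c₄` and `Δ` of the quotient, from those of the Vélu sums -/
theorem velu_val_of_sums (h3 : W.a₃ = 0) (h4 : W.a₄ = 0) (Cn : CoreN V W.b₂ W.a₆ h)
    (C : Set W.Point) {g : G} (hg0 : 0 < g) (hgh : g < h) (ht : V.Ex (veluSumT W C) g)
    (hw : V.Ge (veluSumW W C) (g + g)) :
    V.Ex (veluCurve W C).c₄ 0 ∧ V.Ex (veluCurve W C).Δ g := by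
  set t := veluSumT W C with ht'
  set w := veluSumW W C with hw'
  have hb := Cn.hb₂
  have hb2 : V.Ex (W.b₂ ^ 2) 0 := hb.sq.congr (by grind)
  have hb3 : V.Ex (W.b₂ ^ 3) 0 := by
    rw [show W.b₂ ^ 3 = W.b₂ ^ 2 * W.b₂ by ring]
    exact (hb2.mul hb).congr (by grind)
  have hb4 : V.Ex (W.b₂ ^ 4) 0 := by
    rw [show W.b₂ ^ 4 = W.b₂ ^ 2 * W.b₂ ^ 2 by ring]
    exact (hb2.mul hb2).congr (by grind)
  constructor
  · rw [veluCurve_c₄_normal h3 h4]
    exact hb2.add_gt (((ge_ofNat V 240).mul_gt (ht.gt' hg0)).mono (by grind))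
  · rw [veluCurve_Δ_normal h3 h4]
    have ha₆ : V.Ge W.a₆ (g + g) := Cn.ha₆.ge' (by grind)
    have he : V.Ge (W.a₆ - 7 * w) (g + g) :=
      ha₆.sub (((ge_ofNat V 7).mul hw).mono (by grind))
    have hbt : V.Ge (W.b₂ * t) g := (hb.ge.mul ht.ge).mono (by grind)
    have ha₆' : V.Ge (W.a₆ - W.b₂ * t - 7 * w) g := by
      have : W.a₆ - W.b₂ * t - 7 * w = (W.a₆ - 7 * w) - W.b₂ * t := by ring
      rw [this]
      exact (he.mono (by grind)).sub hbt
    have ht2 : V.Ge (t ^ 2) (g + g) := ht.ge.sq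
    have ht3 : V.Ge (t ^ 3) (g + g) := by
      rw [show t ^ 3 = t ^ 2 * t by ring]
      exact (ht2.mul ht.ge).mono (by grind)
    have r1 : V.Ge (-W.b₂ ^ 3 * (W.a₆ - 7 * w)) (g + g) :=
      (hb3.neg.ge.mul he).mono (by grind)
    have r2 : V.Ge (25 * W.b₂ ^ 2 * t ^ 2) (g + g) :=
      (((ge_ofNat V 25).mul hb2.ge).mul ht2).mono (by grind)
    have r3 : V.Ge (8000 * t ^ 3) (g + g) := ((ge_ofNat V 8000).mul ht3).mono (by grind)
    have r4 : V.Ge (432 * (W.a₆ - W.b₂ * t - 7 * w) ^ 2) (g + g) :=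
      ((ge_ofNat V 432).mul ha₆'.sq).mono (by grind)
    have r5 : V.Ge (360 * W.b₂ * t * (W.a₆ - W.b₂ * t - 7 * w)) (g + g) :=
      ((((ge_ofNat V 360).mul hb.ge).mul ht.ge).mul ha₆').mono (by grind)
    have hR := (((r1.add r2).add r3).sub r4).sub r5
    exact ((hb4.mul ht).congr (by grind)).add_gt (hR.gt (by grind))

/-- the valuations of the Vélu sums for a line through a node point of odd prime order -/
theorem velu_sums (h3 : W.a₃ = 0) (h4 : W.a₄ = 0) (Cn : CoreN V W.b₂ W.a₆ h)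
    (h2 : (2 : K) ≠ 0) {p : ℕ} (hp : p.Prime) (hp2 : p ≠ 2) (Q : W.Point)
    (hQ : addOrderOf Q = p) (hρ : rhoN V h Q ≠ 0) :
    ∃ g : G, 0 < g ∧ g < h ∧ p • g = h + h ∧
      V.Ex (veluSumT W (AddSubgroup.zmultiples Q : Set W.Point)) g ∧
      V.Ge (veluSumW W (AddSubgroup.zmultiples Q : Set W.Point)) (g + g) := by
  classical
  have hh := Cn.hh
  have N := nodalB_of_a₃_a₄ W h3 h4
  have hp3 : 3 ≤ p := by
    have := hp.two_le
    omega
  have hpQ : p • Q = 0 := by rw [← hQ]; exact addOrderOf_nsmul_eq_zero Q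
  obtain ⟨g, i₀, hg0, hpg, hρ₁, hall⟩ := cyc_structure (rhoN (W := W) V h) h rhoN_zero
    (fun P => ⟨rhoN_nonneg hh P, rhoN_le hh P⟩) (rhoN_pairRel N Cn) hp hp2 Q hpQ hρ
  have hgh : g < h := by
    by_contra hc
    rw [not_lt] at hc
    have h1 : 3 • g ≤ p • g := nsmul_le_nsmul_left hg0.le hp3
    rw [hpg] at h1
    have h3g : 3 • g = g + g + g := by
      rw [show (3 : ℕ) = 2 + 1 from rfl, add_nsmul, two_nsmul, one_nsmul]
    rw [h3g] at h1
    grind
  refine ⟨g, hg0, hgh, hpg, ?_⟩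
  set Q₁ := i₀ • Q with hQ₁
  set C : Set W.Point := (AddSubgroup.zmultiples Q : Set W.Point) with hC
  have hQ₁0 : Q₁ ≠ 0 := by
    intro h0
    rw [h0, rhoN_zero] at hρ₁
    exact hg0.ne hρ₁
  have hQ₁C : Q₁ ∈ C := by
    rw [hC, SetLike.mem_coe]
    exact AddSubgroup.nsmul_mem _ (AddSubgroup.mem_zmultiples Q) i₀
  -- the valuation of `x(Q₁)`
  have hx₁ : V.Ex (ptX Q₁) g := by
    rw [rhoN_of_ne hQ₁0, px_eq_ptX] at hρ₁
    exact ex_of_cl_eq hh hg0 hgh hρ₁
  -- the finite set of nonzero points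
  have hfinC : C.Finite := by
    rw [hC, finite_zmultiples, ← addOrderOf_pos_iff, hQ]
    exact hp.pos
  have hfin : (nz C).Finite := hfinC.subset fun _ hP => hP.1
  set S := hfin.toFinset with hS
  have memS : ∀ P, P ∈ S ↔ P ∈ C ∧ P ≠ 0 := fun P => by
    rw [hS, Set.Finite.mem_toFinset]
    rfl
  have hpC : ∀ P ∈ C, p • P = 0 := by
    intro P hP
    rw [hC, SetLike.mem_coe, AddSubgroup.mem_zmultiples_iff] at hP
    obtain ⟨k, rfl⟩ := hP
    rw [smul_comm, hpQ, smul_zero]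
  have hneg : ∀ P ∈ S, -P ∈ S := by
    intro P hP
    rw [memS] at hP ⊢
    exact ⟨by rw [hC, SetLike.mem_coe] at hP ⊢; exact AddSubgroup.neg_mem _ hP.1,
      neg_ne_zero.mpr hP.2⟩
  have hne : ∀ P ∈ S, -P ≠ P := by
    intro P hP hPP
    rw [memS] at hP
    have h2P : 2 • P = 0 := by
      rw [two_nsmul]
      nth_rewrite 1 [← hPP]
      exact neg_add_cancel P
    have hodd : p % 2 = 1 := by
      rcases hp.eq_two_or_odd with h | h
      · exact absurd h hp2
      · exact h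
    have : P = 0 := by
      have e : p = 2 * (p / 2) + 1 := by omega
      have h1 : (2 * (p / 2) + 1) • P = 0 := by rw [← e]; exact hpC P hP.1
      rw [add_nsmul, mul_nsmul, h2P, smul_zero, zero_add, one_nsmul] at h1
      exact h1
    exact hP.2 this
  have hQ₁S : Q₁ ∈ S := (memS Q₁).mpr ⟨hQ₁C, hQ₁0⟩
  obtain ⟨T, hTS, hQ₁T, hnQ₁T, hsum⟩ := exists_half_pt (K := K) S hneg hne hQ₁S
  -- the other points
  have hT : ∀ P ∈ T, V.Ge (ptX P) (g + g) := by
    intro P hPT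
    have hPS := (memS P).mp (hTS hPT)
    have hPC := hPS.1
    rw [hC, SetLike.mem_coe, AddSubgroup.mem_zmultiples_iff] at hPC
    obtain ⟨j, hj⟩ := hPC
    have := hall j
    rw [hj] at this
    rcases this with h0 | h1 | h1 | h1
    · exact absurd h0 hPS.2
    · exact absurd (h1 ▸ hPT) hQ₁T
    · exact absurd (h1 ▸ hPT) hnQ₁T
    · rw [rhoN_of_ne hPS.2, px_eq_ptX] at h1
      exact ge_of_le_cl hh (by grind) h1
  have hb := Cn.hb₂
  have hb₄ : W.b₄ = 0 := N.hb₄
  have hb₆ : W.b₆ = 4 * W.a₆ := N.hb₆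
  have ha₆ : V.Ge W.a₆ (g + g) := Cn.ha₆.ge' (by grind)
  have h4a₆ : V.Ge (4 * W.a₆) (g + g) := ((ge_ofNat V 4).mul ha₆).mono (by grind)
  have half : ∀ a : K, (a + a) / 2 = a := fun a => by field_simp; ring
  constructor
  · -- `t`
    have e : veluSumT W C = veluT W Q₁ + ∑ P ∈ T, veluT W P := by
      rw [veluSumT_eq, finsum_mem_eq_finite_toFinset_sum _ hfin, ← hS, hsum _ veluT_neg, half]
    rw [e]
    have h1 : V.Ex (veluT W Q₁) g := by
      simp only [veluT, hb₄, add_zero]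
      have a1 : V.Ex (W.b₂ * ptX Q₁) g := (hb.mul hx₁).congr (by grind)
      have a2 : V.Gt (6 * ptX Q₁ ^ 2) g :=
        (((ge_ofNat V 6).mul hx₁.sq.ge).gt (by grind))
      exact a1.gt_add a2
    have h2' : V.Ge (∑ P ∈ T, veluT W P) (g + g) := by
      apply ge_sum
      intro P hP
      have hx := hT P hP
      simp only [veluT, hb₄, add_zero]
      exact (((ge_ofNat V 6).mul hx.sq).mono (by grind)).add ((hb.ge.mul hx).mono (by grind))
    exact h1.add_gt (h2'.gt (by grind))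
  · -- `w`
    have hev : ∀ P : W.Point, veluU W (-P) + ptX (-P) * veluT W (-P)
        = veluU W P + ptX P * veluT W P := fun P => by
      rw [veluU_neg, veluT_neg, ptX_neg]
    have e : veluSumW W C = (veluU W Q₁ + ptX Q₁ * veluT W Q₁)
        + ∑ P ∈ T, (veluU W P + ptX P * veluT W P) := by
      rw [veluSumW_eq, finsum_mem_eq_finite_toFinset_sum _ hfin, ← hS,
        hsum (fun P => veluU W P + ptX P * veluT W P) hev, half]
    rw [e]
    have bound : ∀ x : K, V.Ge x g →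
        V.Ge (4 * x ^ 3 + W.b₂ * x ^ 2 + 2 * W.b₄ * x + W.b₆
          + x * (6 * x ^ 2 + W.b₂ * x + W.b₄)) (g + g) := by
      intro x hx
      rw [hb₄, hb₆]
      have hx2 : V.Ge (x ^ 2) (g + g) := hx.sq
      have hx3 : V.Ge (x ^ 3) (g + g) := by
        rw [show x ^ 3 = x ^ 2 * x by ring]
        exact (hx2.mul hx).mono (by grind)
      have t1 : V.Ge (4 * x ^ 3) (g + g) := ((ge_ofNat V 4).mul hx3).mono (by grind)
      have t2 : V.Ge (W.b₂ * x ^ 2) (g + g) := (hb.ge.mul hx2).mono (by grind)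
      have t3 : V.Ge (2 * 0 * x) (g + g) := by
        rw [mul_zero, zero_mul]; exact ge_zero'
      have t4 : V.Ge (x * (6 * x ^ 2 + W.b₂ * x + 0)) (g + g) := by
        have : x * (6 * x ^ 2 + W.b₂ * x + 0) = 6 * x ^ 3 + W.b₂ * x ^ 2 := by ring
        rw [this]
        exact (((ge_ofNat V 6).mul hx3).mono (by grind)).add t2
      exact (((t1.add t2).add t3).add h4a₆).add t4
    have h1 : V.Ge (veluU W Q₁ + ptX Q₁ * veluT W Q₁) (g + g) := by
      simp only [veluU, veluT]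
      exact bound _ hx₁.ge
    have h2' : V.Ge (∑ P ∈ T, (veluU W P + ptX P * veluT W P)) (g + g) := by
      apply ge_sum
      intro P hP
      simp only [veluU, veluT]
      exact bound _ ((hT P hP).mono (by grind))
    exact h1.add h2'

/-- **(L1), normal form**: the valuations of `c₄` and `Δ` of the Vélu quotient by the line
generated by a node point of odd prime order. -/
theorem velu_val (h3 : W.a₃ = 0) (h4 : W.a₄ = 0) (Cn : CoreN V W.b₂ W.a₆ h)
    (h2 : (2 : K) ≠ 0) {p : ℕ} (hp : p.Prime) (hp2 : p ≠ 2) (Q : W.Point)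
    (hQ : addOrderOf Q = p) (hρ : rhoN V h Q ≠ 0) :
    ∃ g : G, 0 < g ∧ p • g = h + h ∧
      V.Ex (veluCurve W (AddSubgroup.zmultiples Q : Set W.Point)).c₄ 0 ∧
      V.Ex (veluCurve W (AddSubgroup.zmultiples Q : Set W.Point)).Δ g := by
  obtain ⟨g, hg0, hgh, hpg, ht, hw⟩ := velu_sums h3 h4 Cn h2 hp hp2 Q hQ hρ
  exact ⟨g, hg0, hpg, velu_val_of_sums h3 h4 Cn _ hg0 hgh ht hw⟩

end VeluVal

end Fermat.Agent.MultRed.Comp
end MergeWrap_Lib_MultRed_Comp_VeluVal
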